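/-
Cell A3 / WP-C (helper135): closure algebra for "flat models" (the S19 / `IsFlatAt` existential).
Definitions: `FlatModel`, pull-back algebra maps on function algebras, Hopf lattices.
-/
import Mathlib
import Fermat.Prelude.Def_GaloisRep_Flat

set_option autoImplicit false

namespace Fermat.Agent.S19.H135

/-- The `S19` / `GaloisRepAdic.IsFlatAt` existential for an arbitrary additive group `M` with a
family of maps `act σ : M → M` indexed by the absolute Galois group of `ℚ`. -/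
def FlatModel (ℓ : ℕ) (M : Type) [AddCommGroup M]
    (act : (AlgebraicClosure ℚ ≃ₐ[ℚ] AlgebraicClosure ℚ) → M → M) : Prop :=
  ∃ (H : Type) (_ : CommRing H) (_ : HopfAlgebra (GaloisRep.ratLocalizedAt ℓ) H),
    Module.Finite (GaloisRep.ratLocalizedAt ℓ) H ∧ Module.Flat (GaloisRep.ratLocalizedAt ℓ) H ∧
    Coalgebra.IsCocomm (GaloisRep.ratLocalizedAt ℓ) H ∧
    ∃ e : WithConv (H →ₐ[GaloisRep.ratLocalizedAt ℓ] AlgebraicClosure ℚ) ≃ M,
      (∀ f g : WithConv (H →ₐ[GaloisRep.ratLocalizedAt ℓ] AlgebraicClosure ℚ),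
        e (f * g) = e f + e g) ∧
      ∀ (σ : AlgebraicClosure ℚ ≃ₐ[ℚ] AlgebraicClosure ℚ)
        (f g : WithConv (H →ₐ[GaloisRep.ratLocalizedAt ℓ] AlgebraicClosure ℚ)),
        (∀ h : H, g h = σ (f h)) → e g = act σ (e f)

/-- `IsFlatAt` is, by definition, `FlatModel` for all finite quotients `V / I V`. -/
theorem isFlatAt_iff {A : Type} [CommRing A] [IsLocalRing A] (ρ : GaloisRepAdic A) (p : ℕ) :
    ρ.IsFlatAt p ↔ Finite (IsLocalRing.ResidueField A) ∧ ∀ I : Ideal A, Finite (A ⧸ I) →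
      FlatModel p (ρ.V ⧸ (I • (⊤ : Submodule A ρ.V))) (fun σ x => ρ.levelAction I σ x) :=
  Iff.rfl

section Pull

variable (R : Type*) [CommSemiring R] (K : Type*) [CommSemiring K] [Algebra R K]
variable {X Y Z : Type*}

/-- Pull-back of functions along `φ : X → Y`, as an algebra homomorphism. -/
def pull (φ : X → Y) : (Y → K) →ₐ[R] (X → K) :=
  AlgHom.pi (fun x => Pi.evalAlgHom R (fun _ => K) (φ x))

@[simp] lemma pull_apply (φ : X → Y) (f : Y → K) (x : X) : pull R K φ f x = f (φ x) := rfl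

lemma pull_comp (φ : X → Y) (ψ : Y → Z) :
    (pull R K φ).comp (pull R K ψ) = pull R K (ψ ∘ φ) := rfl

lemma pull_injective {φ : X → Y} (hφ : Function.Surjective φ) :
    Function.Injective (pull R K φ) := by
  intro f g h
  funext y
  obtain ⟨x, rfl⟩ := hφ y
  exact congrFun h x

lemma pull_surjective [Nonempty K] {φ : X → Y} (hφ : Function.Injective φ) :
    Function.Surjective (pull R K φ) := by
  classical
  intro f
  refine ⟨fun y => if h : ∃ x, φ x = y then f h.choose else Classical.arbitrary K, ?_⟩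
  funext x
  have hx : ∃ x', φ x' = φ x := ⟨x, rfl⟩
  simp only [pull_apply, dif_pos hx]
  exact congrArg f (hφ hx.choose_spec)

end Pull

/-- A *Hopf lattice* for `(M, act)`: an `ℤ_(ℓ)`-subalgebra `Λ` of the algebra of functions
`M → ℚ̄`, finitely generated as a module, consisting of Galois-equivariant functions, separating
the points of `M`, and closed under "comultiplication" `f ↦ ((m, n) ↦ f (m + n))`. -/
structure IsHopfLattice (ℓ : ℕ) {M : Type} [AddCommGroup M]
    (act : (AlgebraicClosure ℚ ≃ₐ[ℚ] AlgebraicClosure ℚ) → M → M)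
    (Λ : Subalgebra (GaloisRep.ratLocalizedAt ℓ) (M → AlgebraicClosure ℚ)) : Prop where
  fg : (Subalgebra.toSubmodule Λ).FG
  equivariant : ∀ f ∈ Λ, ∀ (σ : AlgebraicClosure ℚ ≃ₐ[ℚ] AlgebraicClosure ℚ) (m : M),
    f (act σ m) = σ (f m)
  separates : ∀ m n : M, (∀ f ∈ Λ, f m = f n) → m = n
  comul : Λ.map (pull (GaloisRep.ratLocalizedAt ℓ) (AlgebraicClosure ℚ)
        (fun p : M × M => p.1 + p.2)) ≤
      Λ.map (pull (GaloisRep.ratLocalizedAt ℓ) (AlgebraicClosure ℚ) (Prod.fst : M × M → M)) ⊔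
      Λ.map (pull (GaloisRep.ratLocalizedAt ℓ) (AlgebraicClosure ℚ) (Prod.snd : M × M → M))

/-- `(M, act)` carries a Hopf lattice. -/
def HasHopfLattice (ℓ : ℕ) (M : Type) [AddCommGroup M]
    (act : (AlgebraicClosure ℚ ≃ₐ[ℚ] AlgebraicClosure ℚ) → M → M) : Prop :=
  ∃ Λ : Subalgebra (GaloisRep.ratLocalizedAt ℓ) (M → AlgebraicClosure ℚ), IsHopfLattice ℓ act Λ

/-- Layer 0 (the construction of the Hopf algebra from a lattice), as a hypothesis. -/
def Layer0 (ℓ : ℕ) : Prop :=
  ∀ (M : Type) [AddCommGroup M] (act : (AlgebraicClosure ℚ ≃ₐ[ℚ] AlgebraicClosure ℚ) → M → M),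
    HasHopfLattice ℓ M act → FlatModel ℓ M act

end Fermat.Agent.S19.H135
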