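/-
Cell A3 / WP-C (helper135): a flat model yields a Hopf lattice (image of the Hopf algebra under
evaluation at its `ℚ̄`-points).  No reducedness of `H ⊗ ℚ` is needed.
-/
import Fermat.Agent.S19.H135.Defs

set_option autoImplicit false

namespace Fermat.Agent.S19.H135

open TensorProduct

theorem FlatModel.hasHopfLattice {ℓ : ℕ} {M : Type} [AddCommGroup M]
    {act : (AlgebraicClosure ℚ ≃ₐ[ℚ] AlgebraicClosure ℚ) → M → M}
    (h : FlatModel ℓ M act) : HasHopfLattice ℓ M act := by
  obtain ⟨H, _, _, hfin, -, -, e, hadd, hgal⟩ := h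
  let ev : H →ₐ[GaloisRep.ratLocalizedAt ℓ] (M → AlgebraicClosure ℚ) :=
    AlgHom.pi (fun m => (e.symm m).ofConv)
  have ev_apply : ∀ (x : H) (m : M), ev x m = (e.symm m).ofConv x := fun _ _ => rfl
  refine ⟨ev.range, ?_, ?_, ?_, ?_⟩
  · -- finitely generated
    have h1 : Subalgebra.toSubmodule ev.range = LinearMap.range ev.toLinearMap := rfl
    rw [h1, LinearMap.range_eq_map]
    exact Submodule.FG.map _ hfin.fg_top
  · -- equivariance
    rintro f ⟨x, rfl⟩ σ m
    let g₀ : WithConv (H →ₐ[GaloisRep.ratLocalizedAt ℓ] AlgebraicClosure ℚ) :=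
      WithConv.toConv (((σ : AlgebraicClosure ℚ →ₐ[ℚ] AlgebraicClosure ℚ).restrictScalars
        (GaloisRep.ratLocalizedAt ℓ)).comp (e.symm m).ofConv)
    have h2 : e g₀ = act σ (e (e.symm m)) := hgal σ (e.symm m) g₀ (fun _ => rfl)
    rw [Equiv.apply_symm_apply] at h2
    have h3 : e.symm (act σ m) = g₀ := by rw [← h2, Equiv.symm_apply_apply]
    show (e.symm (act σ m)).ofConv x = σ ((e.symm m).ofConv x)
    rw [h3]
    rfl
  · -- separation
    intro m n hmn
    have : e.symm m = e.symm n := by
      apply WithConv.ofConv_injective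
      apply AlgHom.ext
      intro x
      exact hmn (ev x) ⟨x, rfl⟩
    exact e.symm.injective this
  · -- comultiplication
    rintro F ⟨f, ⟨x, rfl⟩, rfl⟩
    set S := Subalgebra.map (pull (GaloisRep.ratLocalizedAt ℓ) (AlgebraicClosure ℚ)
        (Prod.fst : M × M → M)) ev.range ⊔
      Subalgebra.map (pull (GaloisRep.ratLocalizedAt ℓ) (AlgebraicClosure ℚ)
        (Prod.snd : M × M → M)) ev.range with hS
    have hsymm : ∀ m n : M, e.symm (m + n) = e.symm m * e.symm n := by
      intro m n
      apply e.injective
      rw [hadd]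
      simp
    have key : ∀ t : H ⊗[GaloisRep.ratLocalizedAt ℓ] H,
        (fun p : M × M => Algebra.TensorProduct.lift (e.symm p.1).ofConv (e.symm p.2).ofConv
          (fun _ _ => Commute.all _ _) t) ∈ S := by
      intro t
      induction t using TensorProduct.induction_on with
      | zero =>
        have : (fun p : M × M => Algebra.TensorProduct.lift (e.symm p.1).ofConv
            (e.symm p.2).ofConv (fun _ _ => Commute.all _ _)
            (0 : H ⊗[GaloisRep.ratLocalizedAt ℓ] H)) = 0 := by
          funext p; simp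
        rw [this]; exact S.zero_mem
      | tmul a b =>
        have : (fun p : M × M => Algebra.TensorProduct.lift (e.symm p.1).ofConv
            (e.symm p.2).ofConv (fun _ _ => Commute.all _ _) (a ⊗ₜ[GaloisRep.ratLocalizedAt ℓ] b))
            = pull (GaloisRep.ratLocalizedAt ℓ) (AlgebraicClosure ℚ) (Prod.fst : M × M → M) (ev a)
              * pull (GaloisRep.ratLocalizedAt ℓ) (AlgebraicClosure ℚ)
                (Prod.snd : M × M → M) (ev b) := by
          funext p
          simp [ev_apply]
        rw [this]
        refine S.mul_mem ?_ ?_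
        · exact (le_sup_left : _ ≤ S) ⟨ev a, ⟨a, rfl⟩, rfl⟩
        · exact (le_sup_right : _ ≤ S) ⟨ev b, ⟨b, rfl⟩, rfl⟩
      | add t₁ t₂ h₁ h₂ =>
        have : (fun p : M × M => Algebra.TensorProduct.lift (e.symm p.1).ofConv
            (e.symm p.2).ofConv (fun _ _ => Commute.all _ _) (t₁ + t₂)) =
            (fun p : M × M => Algebra.TensorProduct.lift (e.symm p.1).ofConv
              (e.symm p.2).ofConv (fun _ _ => Commute.all _ _) t₁) +
            (fun p : M × M => Algebra.TensorProduct.lift (e.symm p.1).ofConv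
              (e.symm p.2).ofConv (fun _ _ => Commute.all _ _) t₂) := by
          funext p; simp
        rw [this]; exact S.add_mem h₁ h₂
    have hF : pull (GaloisRep.ratLocalizedAt ℓ) (AlgebraicClosure ℚ)
        (fun p : M × M => p.1 + p.2) (ev x) =
        (fun p : M × M => Algebra.TensorProduct.lift (e.symm p.1).ofConv (e.symm p.2).ofConv
          (fun _ _ => Commute.all _ _) (Coalgebra.comul x)) := by
      funext p
      show (e.symm (p.1 + p.2)).ofConv x = _
      rw [hsymm]
      exact AlgHom.convMul_apply _ _ _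
    show pull (GaloisRep.ratLocalizedAt ℓ) (AlgebraicClosure ℚ)
        (fun p : M × M => p.1 + p.2) (ev x) ∈ S
    rw [hF]
    exact key _

end Fermat.Agent.S19.H135
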