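/-
Cell A3 / WP-C (helper135): basic consequences of the Hopf lattice axioms.
-/
import Fermat.Agent.S19.H135.Defs

set_option autoImplicit false

namespace Fermat.Agent.S19.H135

section Box

variable {R : Type*} [CommRing R] {K : Type*} [CommRing K] [Algebra R K]
variable {X Y : Type*}

/-- Induction principle for the "box product" `pr₁^* Λ₁ ⊔ pr₂^* Λ₂` of two subalgebras of
function algebras: its elements are sums of products `a(x) b(y)`. -/
theorem box_induction {Λ₁ : Subalgebra R (X → K)} {Λ₂ : Subalgebra R (Y → K)}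
    {C : (X × Y → K) → Prop} {F : X × Y → K}
    (hF : F ∈ Λ₁.map (pull R K (Prod.fst : X × Y → X)) ⊔
      Λ₂.map (pull R K (Prod.snd : X × Y → Y)))
    (hmul : ∀ a ∈ Λ₁, ∀ b ∈ Λ₂, C (fun p => a p.1 * b p.2))
    (hadd : ∀ F₁ F₂, C F₁ → C F₂ → C (F₁ + F₂)) : C F := by
  rw [← Subalgebra.mem_toSubmodule, ← Subalgebra.mul_toSubmodule] at hF
  refine Submodule.mul_induction_on hF ?_ hadd
  rintro _ ⟨a, ha, rfl⟩ _ ⟨b, hb, rfl⟩
  exact hmul a ha b hb

theorem mul_mem_box {Λ₁ : Subalgebra R (X → K)} {Λ₂ : Subalgebra R (Y → K)}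
    {a : X → K} (ha : a ∈ Λ₁) {b : Y → K} (hb : b ∈ Λ₂) :
    (fun p : X × Y => a p.1 * b p.2) ∈ Λ₁.map (pull R K (Prod.fst : X × Y → X)) ⊔
      Λ₂.map (pull R K (Prod.snd : X × Y → Y)) :=
  Subalgebra.mul_mem _ ((le_sup_left : Λ₁.map (pull R K (Prod.fst : X × Y → X)) ≤ _)
      ⟨a, ha, rfl⟩)
    ((le_sup_right : Λ₂.map (pull R K (Prod.snd : X × Y → Y)) ≤ _) ⟨b, hb, rfl⟩)

end Box

namespace IsHopfLattice

variable {ℓ : ℕ} {M : Type} [AddCommGroup M]
  {act : (AlgebraicClosure ℚ ≃ₐ[ℚ] AlgebraicClosure ℚ) → M → M}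
  {Λ : Subalgebra (GaloisRep.ratLocalizedAt ℓ) (M → AlgebraicClosure ℚ)}

theorem comul_mem (hΛ : IsHopfLattice ℓ act Λ) {f : M → AlgebraicClosure ℚ} (hf : f ∈ Λ) :
    (fun p : M × M => f (p.1 + p.2)) ∈
      Λ.map (pull (GaloisRep.ratLocalizedAt ℓ) (AlgebraicClosure ℚ) (Prod.fst : M × M → M)) ⊔
      Λ.map (pull (GaloisRep.ratLocalizedAt ℓ) (AlgebraicClosure ℚ) (Prod.snd : M × M → M)) :=
  hΛ.comul ⟨f, hf, rfl⟩

theorem box_equivariant (hΛ : IsHopfLattice ℓ act Λ) {F : M × M → AlgebraicClosure ℚ}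
    (hF : F ∈ Λ.map (pull (GaloisRep.ratLocalizedAt ℓ) (AlgebraicClosure ℚ)
        (Prod.fst : M × M → M)) ⊔
      Λ.map (pull (GaloisRep.ratLocalizedAt ℓ) (AlgebraicClosure ℚ) (Prod.snd : M × M → M)))
    (σ : AlgebraicClosure ℚ ≃ₐ[ℚ] AlgebraicClosure ℚ) (m n : M) :
    F (act σ m, act σ n) = σ (F (m, n)) := by
  refine box_induction (C := fun F => F (act σ m, act σ n) = σ (F (m, n))) hF ?_ ?_
  · intro a ha b hb
    simp only [hΛ.equivariant a ha, hΛ.equivariant b hb, map_mul]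
  · intro F₁ F₂ h₁ h₂
    simp only [Pi.add_apply, h₁, h₂, map_add]

theorem act_add (hΛ : IsHopfLattice ℓ act Λ) (σ : AlgebraicClosure ℚ ≃ₐ[ℚ] AlgebraicClosure ℚ)
    (m n : M) : act σ (m + n) = act σ m + act σ n := by
  apply hΛ.separates
  intro f hf
  rw [hΛ.equivariant f hf]
  exact (hΛ.box_equivariant (hΛ.comul_mem hf) σ m n).symm

theorem act_one (hΛ : IsHopfLattice ℓ act Λ) (m : M) : act 1 m = m := by
  apply hΛ.separates
  intro f hf
  rw [hΛ.equivariant f hf]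
  rfl

theorem act_mul (hΛ : IsHopfLattice ℓ act Λ)
    (σ τ : AlgebraicClosure ℚ ≃ₐ[ℚ] AlgebraicClosure ℚ) (m : M) :
    act (σ * τ) m = act σ (act τ m) := by
  apply hΛ.separates
  intro f hf
  rw [hΛ.equivariant f hf, hΛ.equivariant f hf, hΛ.equivariant f hf]
  rfl

theorem act_zero (hΛ : IsHopfLattice ℓ act Λ)
    (σ : AlgebraicClosure ℚ ≃ₐ[ℚ] AlgebraicClosure ℚ) : act σ 0 = 0 := by
  have h := hΛ.act_add σ 0 0
  rw [add_zero] at h
  exact left_eq_add.mp h

/-- The action as a family of additive automorphisms. -/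
noncomputable def actEquiv (hΛ : IsHopfLattice ℓ act Λ) (σ : AlgebraicClosure ℚ ≃ₐ[ℚ] AlgebraicClosure ℚ) :
    M ≃+ M where
  toFun := act σ
  invFun := act σ⁻¹
  left_inv m := by rw [← hΛ.act_mul, inv_mul_cancel, hΛ.act_one]
  right_inv m := by rw [← hΛ.act_mul, mul_inv_cancel, hΛ.act_one]
  map_add' := hΛ.act_add σ

@[simp] theorem actEquiv_apply (hΛ : IsHopfLattice ℓ act Λ)
    (σ : AlgebraicClosure ℚ ≃ₐ[ℚ] AlgebraicClosure ℚ) (m : M) : hΛ.actEquiv σ m = act σ m := rfl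

theorem act_bijective (hΛ : IsHopfLattice ℓ act Λ)
    (σ : AlgebraicClosure ℚ ≃ₐ[ℚ] AlgebraicClosure ℚ) : Function.Bijective (act σ) :=
  (hΛ.actEquiv σ).bijective

theorem act_neg (hΛ : IsHopfLattice ℓ act Λ)
    (σ : AlgebraicClosure ℚ ≃ₐ[ℚ] AlgebraicClosure ℚ) (m : M) : act σ (-m) = -act σ m :=
  map_neg (hΛ.actEquiv σ) m

theorem act_sub (hΛ : IsHopfLattice ℓ act Λ)
    (σ : AlgebraicClosure ℚ ≃ₐ[ℚ] AlgebraicClosure ℚ) (m n : M) :
    act σ (m - n) = act σ m - act σ n :=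
  map_sub (hΛ.actEquiv σ) m n

/-- Elements of a Hopf lattice are integral over `ℤ_(ℓ)`. -/
theorem isIntegral (hΛ : IsHopfLattice ℓ act Λ) {f : M → AlgebraicClosure ℚ} (hf : f ∈ Λ) :
    IsIntegral (GaloisRep.ratLocalizedAt ℓ) f :=
  IsIntegral.of_mem_of_fg Λ hΛ.fg f hf

/-- Values of elements of a Hopf lattice are integral over `ℤ_(ℓ)`. -/
theorem isIntegral_apply (hΛ : IsHopfLattice ℓ act Λ) {f : M → AlgebraicClosure ℚ} (hf : f ∈ Λ)
    (m : M) : IsIntegral (GaloisRep.ratLocalizedAt ℓ) (f m) :=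
  (hΛ.isIntegral hf).map (Pi.evalAlgHom (GaloisRep.ratLocalizedAt ℓ)
    (fun _ : M => AlgebraicClosure ℚ) m)

/-- The group carrying a Hopf lattice is finite. -/
theorem finite (hΛ : IsHopfLattice ℓ act Λ) : Finite M := by
  classical
  obtain ⟨s, hs⟩ := hΛ.fg
  have hsΛ : ∀ f ∈ s, f ∈ Λ := fun f hf => by
    have : f ∈ Submodule.span (GaloisRep.ratLocalizedAt ℓ) (s : Set (M → AlgebraicClosure ℚ)) :=
      Submodule.subset_span hf
    rw [hs] at this
    exact this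
  -- for each generator, a monic polynomial killing it
  have hpoly : ∀ f : s, ∃ P : Polynomial (GaloisRep.ratLocalizedAt ℓ), P.Monic ∧
      ∀ m : M, Polynomial.eval₂ (algebraMap _ (AlgebraicClosure ℚ)) (f.1 m) P = 0 := by
    intro f
    obtain ⟨P, hP, hP0⟩ := hΛ.isIntegral (hsΛ f.1 f.2)
    refine ⟨P, hP, fun m => ?_⟩
    have := congrArg (Pi.evalAlgHom (GaloisRep.ratLocalizedAt ℓ)
      (fun _ : M => AlgebraicClosure ℚ) m) hP0
    rw [map_zero, ← Polynomial.aeval_def, ← Polynomial.aeval_algHom_apply] at this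
    rw [← Polynomial.aeval_def]
    exact this
  choose P hPm hP0 using hpoly
  -- the target: tuples of roots
  let T : s → Set (AlgebraicClosure ℚ) := fun f =>
    {z | Polynomial.eval₂ (algebraMap _ (AlgebraicClosure ℚ)) z (P f) = 0}
  have hTfin : ∀ f, (T f).Finite := by
    intro f
    have hne : (P f).map (algebraMap _ (AlgebraicClosure ℚ)) ≠ 0 :=
      ((hPm f).map _).ne_zero
    refine Set.Finite.subset (((P f).map (algebraMap _ (AlgebraicClosure ℚ))).roots.toFinset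
      ).finite_toSet ?_
    intro z hz
    simp only [Finset.mem_coe, Multiset.mem_toFinset, Polynomial.mem_roots hne,
      Polynomial.IsRoot.def, Polynomial.eval_map]
    exact hz
  have : ∀ f, Finite (T f) := fun f => (hTfin f).to_subtype
  let Φ : M → (∀ f : s, T f) := fun m f => ⟨f.1 m, hP0 f m⟩
  have hΦ : Function.Injective Φ := by
    intro m n hmn
    apply hΛ.separates
    intro f hf
    have hf' : f ∈ Submodule.span (GaloisRep.ratLocalizedAt ℓ)
        (s : Set (M → AlgebraicClosure ℚ)) := by rw [hs]; exact hf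
    refine Submodule.span_induction (p := fun f _ => f m = f n) ?_ ?_ ?_ ?_ hf'
    · intro g hg
      have := congrFun hmn ⟨g, hg⟩
      exact congrArg Subtype.val this
    · rfl
    · intro g₁ g₂ _ _ h₁ h₂
      simp only [Pi.add_apply, h₁, h₂]
    · intro c g _ hg
      simp only [Pi.smul_apply, hg]
  exact Finite.of_injective Φ hΦ

end IsHopfLattice

end Fermat.Agent.S19.H135
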