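/-
Cell A3 / WP-C (helper135): arithmetic of `ℤ_(ℓ) = GaloisRep.ratLocalizedAt ℓ` inside `ℚ̄`:
fraction field, Galois-fixed integral elements.
-/
import Fermat.Agent.S19.H135.Defs
import Fermat.Agent.S28.H865Dvr

set_option autoImplicit false

namespace Fermat.Agent.S19.H135

variable (ℓ : ℕ)

theorem intCast_mem_ratLocalizedAt (n : ℤ) : (n : ℚ) ∈ GaloisRep.ratLocalizedAt ℓ := by
  show ((n : ℚ)).den.Coprime ℓ
  simp

theorem isFractionRing_ratLocalizedAt : IsFractionRing (GaloisRep.ratLocalizedAt ℓ) ℚ := by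
  refine IsFractionRing.of_field _ _ (fun z => ?_)
  refine ⟨⟨(z.num : ℚ), intCast_mem_ratLocalizedAt ℓ z.num⟩,
    ⟨((z.den : ℤ) : ℚ), intCast_mem_ratLocalizedAt ℓ z.den⟩, ?_⟩
  show z = (z.num : ℚ) / (((z.den : ℤ) : ℚ))
  rw [Int.cast_natCast]
  exact (Rat.num_div_den z).symm

theorem algebraMap_ratLocalizedAt_apply (r : GaloisRep.ratLocalizedAt ℓ) :
    algebraMap (GaloisRep.ratLocalizedAt ℓ) (AlgebraicClosure ℚ) r =
      algebraMap ℚ (AlgebraicClosure ℚ) (r : ℚ) := rfl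

theorem algebraMap_ratLocalizedAt_injective :
    Function.Injective (algebraMap (GaloisRep.ratLocalizedAt ℓ) (AlgebraicClosure ℚ)) := by
  intro r s h
  rw [algebraMap_ratLocalizedAt_apply, algebraMap_ratLocalizedAt_apply] at h
  exact Subtype.ext ((algebraMap ℚ (AlgebraicClosure ℚ)).injective h)

/-- `ℚ̄ / ℚ` is Galois. -/
theorem isGalois_Qb_h135 : IsGalois ℚ (AlgebraicClosure ℚ) := by
  have h1 : Algebra.IsAlgebraic ℚ (AlgebraicClosure ℚ) := AlgebraicClosure.isAlgebraic ℚ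
  have h2 : IsAlgClosure ℚ (AlgebraicClosure ℚ) := ⟨inferInstance, inferInstance⟩
  have h3 : Normal ℚ (AlgebraicClosure ℚ) := IsAlgClosure.normal ℚ (AlgebraicClosure ℚ)
  exact isGalois_iff.mpr ⟨inferInstance, inferInstance⟩

/-- Galois-fixed elements of `ℚ̄` are rational. -/
theorem exists_rat_of_fixed {z : AlgebraicClosure ℚ}
    (hfix : ∀ σ : AlgebraicClosure ℚ ≃ₐ[ℚ] AlgebraicClosure ℚ, σ z = z) :
    ∃ x : ℚ, algebraMap ℚ (AlgebraicClosure ℚ) x = z := by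
  have := isGalois_Qb_h135
  exact (InfiniteGalois.mem_range_algebraMap_iff_fixed (k := ℚ)
    (K := AlgebraicClosure ℚ) z).mpr hfix

variable [Fact ℓ.Prime]

/-- A rational number which is integral over `ℤ_(ℓ)` lies in `ℤ_(ℓ)`. -/
theorem mem_ratLocalizedAt_of_isIntegral {x : ℚ} (hx : IsIntegral (GaloisRep.ratLocalizedAt ℓ) x) :
    ∃ r : GaloisRep.ratLocalizedAt ℓ, (r : ℚ) = x := by
  have := isFractionRing_ratLocalizedAt ℓ
  exact IsIntegrallyClosed.isIntegral_iff.mp hx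

/-- An element of `ℚ̄` which is integral over `ℤ_(ℓ)` and fixed by the absolute Galois group
lies in `ℤ_(ℓ)`. -/
theorem exists_ratLocalizedAt_of_fixed_of_isIntegral {z : AlgebraicClosure ℚ}
    (hfix : ∀ σ : AlgebraicClosure ℚ ≃ₐ[ℚ] AlgebraicClosure ℚ, σ z = z)
    (hint : IsIntegral (GaloisRep.ratLocalizedAt ℓ) z) :
    ∃ r : GaloisRep.ratLocalizedAt ℓ, algebraMap _ (AlgebraicClosure ℚ) r = z := by
  obtain ⟨x, rfl⟩ := exists_rat_of_fixed hfix
  have hx : IsIntegral (GaloisRep.ratLocalizedAt ℓ) x :=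
    (isIntegral_algebraMap_iff (algebraMap ℚ (AlgebraicClosure ℚ)).injective).mp hint
  obtain ⟨r, rfl⟩ := mem_ratLocalizedAt_of_isIntegral ℓ hx
  exact ⟨r, rfl⟩

end Fermat.Agent.S19.H135
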