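/-
Cell A3 / WP-C (helper135): independence and descent for lattices of Galois-equivariant functions.
* `linearIndependent_Qb_of_equivariant`: `ℚ`-independent equivariant functions are `ℚ̄`-independent;
* `exists_basis_of_fg_equivariant`: a f.g. `ℤ_(ℓ)`-module of equivariant functions has a finite
  basis which is `ℚ̄`-linearly independent;
* `mem_of_integral_combination`: an equivariant combination of the basis with integral
  coefficients has coefficients in `ℤ_(ℓ)`.
-/
import Fermat.Agent.S19.H135.Zl

set_option autoImplicit false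

namespace Fermat.Agent.S19.H135

section Indep

variable {M : Type*} {ι : Type*}

/-- Artin-type lemma: a `ℚ`-linearly independent family of functions `M → ℚ̄` which are
equivariant for a family of surjections `act σ : M → M` is `ℚ̄`-linearly independent. -/
theorem linearIndependent_Qb_of_equivariant
    (act : (AlgebraicClosure ℚ ≃ₐ[ℚ] AlgebraicClosure ℚ) → M → M)
    (hact : ∀ σ, Function.Surjective (act σ))
    (f : ι → M → AlgebraicClosure ℚ) (hf : ∀ i σ m, f i (act σ m) = σ (f i m))
    (hli : LinearIndependent ℚ f) : LinearIndependent (AlgebraicClosure ℚ) f := by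
  classical
  rw [linearIndependent_iff']
  intro s
  induction s using Finset.strongInduction with
  | H s ih =>
    intro g hg i hi
    by_contra hne
    set c : ι → AlgebraicClosure ℚ := fun k => (g i)⁻¹ * g k with hc
    have hci : c i = 1 := inv_mul_cancel₀ hne
    have hsum : ∑ k ∈ s, c k • f k = 0 := by
      have : ∑ k ∈ s, c k • f k = (g i)⁻¹ • ∑ k ∈ s, g k • f k := by
        rw [Finset.smul_sum]
        refine Finset.sum_congr rfl (fun k _ => ?_)
        rw [smul_smul]
      rw [this, hg, smul_zero]
    have hfix : ∀ σ : AlgebraicClosure ℚ ≃ₐ[ℚ] AlgebraicClosure ℚ, ∀ k ∈ s, σ (c k) = c k := by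
      intro σ
      have h1 : ∑ k ∈ s, σ (c k) • f k = 0 := by
        funext m
        obtain ⟨m', rfl⟩ := hact σ m
        have h := congrArg σ (congrFun hsum m')
        simp only [Finset.sum_apply, Pi.smul_apply, smul_eq_mul, map_sum, map_mul, map_zero,
          Pi.zero_apply] at h ⊢
        rw [← h]
        refine Finset.sum_congr rfl (fun k _ => ?_)
        rw [hf]
      have h3 : ∑ k ∈ s, (σ (c k) - c k) • f k = 0 := by
        simp only [sub_smul, Finset.sum_sub_distrib, h1, hsum, sub_zero]
      have h2 : ∑ k ∈ s.erase i, (σ (c k) - c k) • f k = 0 := by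
        rw [← Finset.add_sum_erase s _ hi] at h3
        simpa [hci] using h3
      intro k hk
      by_cases hki : k = i
      · subst hki
        rw [hci, map_one]
      · have := ih (s.erase i) (Finset.erase_ssubset hi) (fun k => σ (c k) - c k) h2 k
          (Finset.mem_erase.mpr ⟨hki, hk⟩)
        exact sub_eq_zero.mp this
    have hrat : ∀ k ∈ s, ∃ q : ℚ, algebraMap ℚ (AlgebraicClosure ℚ) q = c k :=
      fun k hk => exists_rat_of_fixed (fun σ => hfix σ k hk)
    choose! q hq using hrat
    have hsumq : ∑ k ∈ s, q k • f k = 0 := by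
      rw [← hsum]
      refine Finset.sum_congr rfl (fun k hk => ?_)
      rw [← hq k hk, algebraMap_smul]
    have hqi := linearIndependent_iff'.mp hli s q hsumq i hi
    have h1 : c i = 0 := by rw [← hq i hi, hqi, map_zero]
    rw [hci] at h1
    exact one_ne_zero h1

end Indep

section Lattice

variable {ℓ : ℕ} [Fact ℓ.Prime] {M : Type}

omit [Fact ℓ.Prime] in
theorem isTorsionFree_fun_h135
    (N : Submodule (GaloisRep.ratLocalizedAt ℓ) (M → AlgebraicClosure ℚ)) :
    Module.IsTorsionFree (GaloisRep.ratLocalizedAt ℓ) N := by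
  refine Module.IsTorsionFree.of_smul_eq_zero ?_
  intro r f hrf
  by_cases hr : r = 0
  · exact Or.inl hr
  · right
    apply Subtype.ext
    funext m
    have h1 : (r • (f : M → AlgebraicClosure ℚ)) m = 0 := by
      have := congrArg (fun x : N => (x : M → AlgebraicClosure ℚ) m) hrf
      simpa using this
    rw [Pi.smul_apply, Algebra.smul_def, mul_eq_zero] at h1
    rcases h1 with h1 | h1
    · exfalso
      apply hr
      exact algebraMap_ratLocalizedAt_injective ℓ (by rw [h1, map_zero])
    · exact h1

/-- A finitely generated `ℤ_(ℓ)`-module of equivariant functions has a finite basis that is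
linearly independent over `ℚ̄`. -/
theorem exists_basis_of_fg_equivariant
    (act : (AlgebraicClosure ℚ ≃ₐ[ℚ] AlgebraicClosure ℚ) → M → M)
    (hact : ∀ σ, Function.Surjective (act σ))
    (N : Submodule (GaloisRep.ratLocalizedAt ℓ) (M → AlgebraicClosure ℚ)) (hfg : N.FG)
    (heq : ∀ f ∈ N, ∀ σ m, f (act σ m) = σ (f m)) :
    ∃ (n : ℕ) (b : Fin n → M → AlgebraicClosure ℚ), (∀ i, b i ∈ N) ∧
      LinearIndependent (AlgebraicClosure ℚ) b ∧
      Submodule.span (GaloisRep.ratLocalizedAt ℓ) (Set.range b) = N := by
  have hfin : Module.Finite (GaloisRep.ratLocalizedAt ℓ) N := Module.Finite.iff_fg.mpr hfg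
  have htf : Module.IsTorsionFree (GaloisRep.ratLocalizedAt ℓ) N := isTorsionFree_fun_h135 N
  have hfree : Module.Free (GaloisRep.ratLocalizedAt ℓ) N := inferInstance
  let B := Module.finBasis (GaloisRep.ratLocalizedAt ℓ) N
  refine ⟨_, fun i => (B i : M → AlgebraicClosure ℚ), fun i => (B i).2, ?_, ?_⟩
  · have h1 : LinearIndependent (GaloisRep.ratLocalizedAt ℓ)
        (fun i => (B i : M → AlgebraicClosure ℚ)) :=
      B.linearIndependent.map' N.subtype (Submodule.ker_subtype N)
    have hfr := isFractionRing_ratLocalizedAt ℓ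
    have h2 : LinearIndependent ℚ (fun i => (B i : M → AlgebraicClosure ℚ)) :=
      (LinearIndependent.iff_fractionRing (GaloisRep.ratLocalizedAt ℓ) ℚ).mp h1
    exact linearIndependent_Qb_of_equivariant act hact _ (fun i σ m => heq _ (B i).2 σ m) h2
  · have h1 : Set.range (fun i => (B i : M → AlgebraicClosure ℚ)) = N.subtype '' Set.range B := by
      rw [← Set.range_comp]
      rfl
    rw [h1, ← Submodule.map_span, B.span_eq, Submodule.map_subtype_top]

/-- Descent of coefficients: an equivariant combination of a `ℚ̄`-independent family of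
equivariant functions with coefficients integral over `ℤ_(ℓ)` has coefficients in `ℤ_(ℓ)`. -/
theorem mem_of_integral_combination
    (act : (AlgebraicClosure ℚ ≃ₐ[ℚ] AlgebraicClosure ℚ) → M → M)
    (hact : ∀ σ, Function.Surjective (act σ))
    {n : ℕ} (b : Fin n → M → AlgebraicClosure ℚ)
    (hb : ∀ i σ m, b i (act σ m) = σ (b i m))
    (hli : LinearIndependent (AlgebraicClosure ℚ) b)
    (z : Fin n → AlgebraicClosure ℚ) (hz : ∀ i, IsIntegral (GaloisRep.ratLocalizedAt ℓ) (z i))
    (hF : ∀ σ m, (∑ i, z i • b i) (act σ m) = σ ((∑ i, z i • b i) m)) :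
    ∑ i, z i • b i ∈ Submodule.span (GaloisRep.ratLocalizedAt ℓ) (Set.range b) := by
  have hfix : ∀ σ : AlgebraicClosure ℚ ≃ₐ[ℚ] AlgebraicClosure ℚ, ∀ i, σ (z i) = z i := by
    intro σ
    have h1 : ∑ i, (σ (z i) - z i) • b i = 0 := by
      funext m
      obtain ⟨m', rfl⟩ := hact σ m
      have h := hF σ m'
      simp only [Finset.sum_apply, Pi.smul_apply, smul_eq_mul, map_sum, map_mul, hb] at h
      simp only [Finset.sum_apply, Pi.smul_apply, smul_eq_mul, sub_mul, Finset.sum_sub_distrib,
        Pi.zero_apply, hb]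
      rw [h, sub_self]
    intro i
    have := linearIndependent_iff'.mp hli Finset.univ _ h1 i (Finset.mem_univ i)
    exact sub_eq_zero.mp this
  have hr : ∀ i, ∃ r : GaloisRep.ratLocalizedAt ℓ,
      algebraMap _ (AlgebraicClosure ℚ) r = z i :=
    fun i => exists_ratLocalizedAt_of_fixed_of_isIntegral ℓ (fun σ => hfix σ i) (hz i)
  choose r hr using hr
  have : ∑ i, z i • b i = ∑ i, r i • b i := by
    refine Finset.sum_congr rfl (fun i _ => ?_)
    rw [← hr i, algebraMap_smul]
  rw [this]
  exact Submodule.sum_mem _ (fun i _ => Submodule.smul_mem _ _ (Submodule.subset_span ⟨i, rfl⟩))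

end Lattice

end Fermat.Agent.S19.H135
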