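/-
Cell A3 / WP-C (helper135): preparations for quotients of Hopf lattices:
expansion of box elements in a spanning family, swap, finite generation of sublattices,
descent of kernel-invariant functions along a surjection.
-/
import Fermat.Agent.S19.H135.Basic
import Fermat.Agent.S19.H135.Indep

set_option autoImplicit false

namespace Fermat.Agent.S19.H135

section BoxExpand

variable {R : Type*} [CommRing R] {K : Type*} [CommRing K] [Algebra R K]
variable {X Y : Type*}

/-- Elements of the box product can be expanded along a spanning family of the first factor. -/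
theorem box_expand {Λ₁ : Subalgebra R (X → K)} {Λ₂ : Subalgebra R (Y → K)}
    {n : ℕ} (b : Fin n → X → K)
    (hspan : Submodule.span R (Set.range b) = Subalgebra.toSubmodule Λ₁)
    {F : X × Y → K}
    (hF : F ∈ Λ₁.map (pull R K (Prod.fst : X × Y → X)) ⊔
      Λ₂.map (pull R K (Prod.snd : X × Y → Y))) :
    ∃ g : Fin n → Y → K, (∀ i, g i ∈ Λ₂) ∧ ∀ x y, F (x, y) = ∑ i, b i x * g i y := by
  refine box_induction (C := fun F => ∃ g : Fin n → Y → K, (∀ i, g i ∈ Λ₂) ∧
    ∀ x y, F (x, y) = ∑ i, b i x * g i y) hF ?_ ?_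
  · intro a ha c hc
    have ha' : a ∈ Submodule.span R (Set.range b) := by rw [hspan]; exact ha
    obtain ⟨r, rfl⟩ := (Submodule.mem_span_range_iff_exists_fun R).mp ha'
    refine ⟨fun i => r i • c, fun i => Λ₂.smul_mem hc _, fun x y => ?_⟩
    simp only [Finset.sum_apply, Pi.smul_apply, Finset.sum_mul]
    refine Finset.sum_congr rfl (fun i _ => ?_)
    rw [Algebra.smul_def, Algebra.smul_def]
    ring
  · rintro F₁ F₂ ⟨g₁, hg₁, e₁⟩ ⟨g₂, hg₂, e₂⟩
    refine ⟨fun i => g₁ i + g₂ i, fun i => Λ₂.add_mem (hg₁ i) (hg₂ i), fun x y => ?_⟩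
    simp only [Pi.add_apply, e₁, e₂, mul_add, Finset.sum_add_distrib]

theorem box_swap {Λ₁ : Subalgebra R (X → K)} {Λ₂ : Subalgebra R (Y → K)} {F : X × Y → K}
    (hF : F ∈ Λ₁.map (pull R K (Prod.fst : X × Y → X)) ⊔
      Λ₂.map (pull R K (Prod.snd : X × Y → Y))) :
    (fun p : Y × X => F (p.2, p.1)) ∈ Λ₂.map (pull R K (Prod.fst : Y × X → Y)) ⊔
      Λ₁.map (pull R K (Prod.snd : Y × X → X)) := by
  refine box_induction (C := fun F => (fun p : Y × X => F (p.2, p.1)) ∈
    Λ₂.map (pull R K (Prod.fst : Y × X → Y)) ⊔ Λ₁.map (pull R K (Prod.snd : Y × X → X))) hF ?_ ?_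
  · intro a ha c hc
    have := mul_mem_box (Λ₁ := Λ₂) (Λ₂ := Λ₁) hc ha
    convert this using 1
    funext p
    exact mul_comm _ _
  · intro F₁ F₂ h₁ h₂
    exact Subalgebra.add_mem _ h₁ h₂

/-- Expansion along a spanning family of the second factor. -/
theorem box_expand' {Λ₁ : Subalgebra R (X → K)} {Λ₂ : Subalgebra R (Y → K)}
    {n : ℕ} (u : Fin n → Y → K)
    (hspan : Submodule.span R (Set.range u) = Subalgebra.toSubmodule Λ₂)
    {F : X × Y → K}
    (hF : F ∈ Λ₁.map (pull R K (Prod.fst : X × Y → X)) ⊔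
      Λ₂.map (pull R K (Prod.snd : X × Y → Y))) :
    ∃ k : Fin n → X → K, (∀ i, k i ∈ Λ₁) ∧ ∀ x y, F (x, y) = ∑ i, k i x * u i y := by
  obtain ⟨k, hk, e⟩ := box_expand u hspan (box_swap hF)
  refine ⟨k, hk, fun x y => ?_⟩
  rw [e y x]
  exact Finset.sum_congr rfl (fun i _ => mul_comm _ _)

theorem sum_mul_mem_box {Λ₁ : Subalgebra R (X → K)} {Λ₂ : Subalgebra R (Y → K)}
    {n : ℕ} (a : Fin n → X → K) (c : Fin n → Y → K) (ha : ∀ i, a i ∈ Λ₁) (hc : ∀ i, c i ∈ Λ₂) :
    (fun p : X × Y => ∑ i, a i p.1 * c i p.2) ∈ Λ₁.map (pull R K (Prod.fst : X × Y → X)) ⊔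
      Λ₂.map (pull R K (Prod.snd : X × Y → Y)) := by
  have h : (fun p : X × Y => ∑ i, a i p.1 * c i p.2) =
      ∑ i, (fun p : X × Y => a i p.1 * c i p.2) := by
    funext p
    simp only [Finset.sum_apply]
  rw [h]
  exact Subalgebra.sum_mem _ (fun i _ => mul_mem_box (ha i) (hc i))

end BoxExpand

section FG

variable {R : Type*} [CommRing R] [IsNoetherianRing R] {V : Type*} [AddCommGroup V] [Module R V]

theorem fg_of_le_of_fg_h135 {N P : Submodule R V} (hN : N.FG) (hle : P ≤ N) : P.FG := by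
  have : IsNoetherian R N := isNoetherian_of_fg_of_noetherian N hN
  have h1 : (P.comap N.subtype).FG := IsNoetherian.noetherian _
  have h2 : (P.comap N.subtype).map N.subtype = P := by
    rw [Submodule.map_comap_subtype]
    exact inf_eq_right.mpr hle
  rw [← h2]
  exact h1.map _

end FG

section Descend

variable {M M₂ : Type*} [AddCommGroup M] [AddCommGroup M₂] {K : Type*}

/-- A function invariant under translation by the kernel of a surjection `q` factors through
`q`. -/
theorem exists_factor_of_ker_invariant (q : M →+ M₂) (hq : Function.Surjective q)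
    (f : M → K) (hf : ∀ m k : M, q k = 0 → f (m + k) = f m) :
    ∃ g : M₂ → K, ∀ m, g (q m) = f m := by
  refine ⟨fun y => f (Function.surjInv hq y), fun m => ?_⟩
  have h1 : q (Function.surjInv hq (q m)) = q m := Function.surjInv_eq hq (q m)
  have h2 : q (m - Function.surjInv hq (q m)) = 0 := by rw [map_sub, h1, sub_self]
  have := hf (Function.surjInv hq (q m)) _ h2
  rw [add_sub_cancel] at this
  exact this.symm

end Descend

end Fermat.Agent.S19.H135
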