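/-
Cell A3 / WP-C (helper135): Hopf lattices pass to quotients by stable subgroups, WITHOUT Cartier
duality.  For an equivariant surjection `q : M →+ M₂` the lattice on `M₂` is
`Λ₂ = {g | g ∘ q ∈ Λ}`.
* comultiplication: expansion in `ℚ̄`-independent bases + invariance under the kernel;
* separation of points: traces `m ↦ ∑_{k ∈ ker q} h (m + k)` lie in `Λ` (descent of
  coefficients) and Dedekind independence of the evaluation characters.
-/
import Fermat.Agent.S19.H135.QuotPrep

set_option autoImplicit false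

namespace Fermat.Agent.S19.H135

section Quot

variable {ℓ : ℕ} [Fact ℓ.Prime] {M M₂ : Type} [AddCommGroup M] [AddCommGroup M₂]
  {act : (AlgebraicClosure ℚ ≃ₐ[ℚ] AlgebraicClosure ℚ) → M → M}
  {act₂ : (AlgebraicClosure ℚ ≃ₐ[ℚ] AlgebraicClosure ℚ) → M₂ → M₂}
  {Λ : Subalgebra (GaloisRep.ratLocalizedAt ℓ) (M → AlgebraicClosure ℚ)}

omit [Fact ℓ.Prime] in
/-- Translates of elements of a Hopf lattice, expanded in a spanning family: the coefficients
are values of elements of the lattice. -/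
theorem IsHopfLattice.exists_translate_expansion (hΛ : IsHopfLattice ℓ act Λ)
    {n : ℕ} (b : Fin n → M → AlgebraicClosure ℚ)
    (hspan : Submodule.span (GaloisRep.ratLocalizedAt ℓ) (Set.range b) =
      Subalgebra.toSubmodule Λ)
    {h : M → AlgebraicClosure ℚ} (hh : h ∈ Λ) :
    ∃ g : Fin n → M → AlgebraicClosure ℚ, (∀ i, g i ∈ Λ) ∧
      ∀ m k, h (m + k) = ∑ i, b i m * g i k :=
  box_expand b hspan (hΛ.comul_mem hh)

/-- The trace of an element of a Hopf lattice over a finite stable set of translations lies in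
the lattice. -/
theorem IsHopfLattice.trace_mem (hΛ : IsHopfLattice ℓ act Λ) (K : Finset M)
    (hK : ∀ σ, ∀ k, k ∈ K ↔ act σ k ∈ K)
    {h : M → AlgebraicClosure ℚ} (hh : h ∈ Λ) :
    (fun m => ∑ k ∈ K, h (m + k)) ∈ Λ := by
  have hact : ∀ σ, Function.Surjective (act σ) := fun σ => (hΛ.act_bijective σ).2
  obtain ⟨n, b, hbΛ, hbli, hbspan⟩ := exists_basis_of_fg_equivariant act hact
    (Subalgebra.toSubmodule Λ) hΛ.fg hΛ.equivariant
  obtain ⟨g, hg, hexp⟩ := hΛ.exists_translate_expansion b hbspan hh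
  have hrepr : (fun m => ∑ k ∈ K, h (m + k)) = ∑ i, (∑ k ∈ K, g i k) • b i := by
    funext m
    simp only [Finset.sum_apply, Pi.smul_apply, smul_eq_mul, hexp]
    rw [Finset.sum_comm]
    refine Finset.sum_congr rfl (fun i _ => ?_)
    rw [Finset.sum_mul]
    exact Finset.sum_congr rfl (fun k _ => mul_comm _ _)
  have hmem : ∑ i, (∑ k ∈ K, g i k) • b i ∈
      Submodule.span (GaloisRep.ratLocalizedAt ℓ) (Set.range b) := by
    refine mem_of_integral_combination act hact b (fun i σ m => hΛ.equivariant _ (hbΛ i) σ m)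
      hbli _ (fun i => IsIntegral.sum _ (fun k _ => hΛ.isIntegral_apply (hg i) k)) ?_
    intro σ m
    rw [← hrepr]
    show ∑ k ∈ K, h (act σ m + k) = σ (∑ k ∈ K, h (m + k))
    rw [map_sum]
    refine Finset.sum_nbij' (fun k => act σ⁻¹ k) (fun k => act σ k) ?_ ?_ ?_ ?_ ?_
    · intro k hk
      rw [hK σ, ← hΛ.act_mul, mul_inv_cancel, hΛ.act_one]
      exact hk
    · intro k hk
      exact (hK σ k).mp hk
    · intro k _
      rw [← hΛ.act_mul, mul_inv_cancel, hΛ.act_one]
    · intro k _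
      rw [← hΛ.act_mul, inv_mul_cancel, hΛ.act_one]
    · intro k _
      rw [← hΛ.equivariant h hh, hΛ.act_add, ← hΛ.act_mul, mul_inv_cancel, hΛ.act_one]
  rw [hrepr]
  rw [hbspan] at hmem
  exact hmem

variable (q : M →+ M₂)

omit [Fact ℓ.Prime] in
theorem IsHopfLattice.quot_equivariant (hΛ : IsHopfLattice ℓ act Λ)
    (hq : Function.Surjective q) (heq : ∀ σ m, q (act σ m) = act₂ σ (q m))
    (g : M₂ → AlgebraicClosure ℚ)
    (hg : g ∈ Λ.comap (pull (GaloisRep.ratLocalizedAt ℓ) (AlgebraicClosure ℚ) q))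
    (σ : AlgebraicClosure ℚ ≃ₐ[ℚ] AlgebraicClosure ℚ) (y : M₂) :
    g (act₂ σ y) = σ (g y) := by
  obtain ⟨m, rfl⟩ := hq y
  rw [← heq]
  exact hΛ.equivariant _ hg σ m

theorem IsHopfLattice.quot_fg (hΛ : IsHopfLattice ℓ act Λ) (hq : Function.Surjective q) :
    (Subalgebra.toSubmodule
      (Λ.comap (pull (GaloisRep.ratLocalizedAt ℓ) (AlgebraicClosure ℚ) q))).FG := by
  refine Submodule.fg_of_fg_map_injective
    (pull (GaloisRep.ratLocalizedAt ℓ) (AlgebraicClosure ℚ) q).toLinearMap
    (pull_injective (GaloisRep.ratLocalizedAt ℓ) (AlgebraicClosure ℚ) hq) ?_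
  refine fg_of_le_of_fg_h135 hΛ.fg ?_
  rintro _ ⟨g, hg, rfl⟩
  exact hg

omit [Fact ℓ.Prime] in
theorem IsHopfLattice.quot_act_surjective (hΛ : IsHopfLattice ℓ act Λ)
    (hq : Function.Surjective q) (heq : ∀ σ m, q (act σ m) = act₂ σ (q m))
    (σ : AlgebraicClosure ℚ ≃ₐ[ℚ] AlgebraicClosure ℚ) : Function.Surjective (act₂ σ) := by
  intro y
  obtain ⟨m, rfl⟩ := hq y
  obtain ⟨m', rfl⟩ := (hΛ.act_bijective σ).2 m
  exact ⟨q m', (heq σ m').symm⟩

/-- Comultiplication on the quotient lattice. -/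
theorem IsHopfLattice.quot_comul (hΛ : IsHopfLattice ℓ act Λ)
    (hq : Function.Surjective q) (heq : ∀ σ m, q (act σ m) = act₂ σ (q m))
    {g : M₂ → AlgebraicClosure ℚ}
    (hg : g ∈ Λ.comap (pull (GaloisRep.ratLocalizedAt ℓ) (AlgebraicClosure ℚ) q)) :
    (fun p : M₂ × M₂ => g (p.1 + p.2)) ∈
      (Λ.comap (pull (GaloisRep.ratLocalizedAt ℓ) (AlgebraicClosure ℚ) q)).map
        (pull (GaloisRep.ratLocalizedAt ℓ) (AlgebraicClosure ℚ) (Prod.fst : M₂ × M₂ → M₂)) ⊔
      (Λ.comap (pull (GaloisRep.ratLocalizedAt ℓ) (AlgebraicClosure ℚ) q)).map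
        (pull (GaloisRep.ratLocalizedAt ℓ) (AlgebraicClosure ℚ) (Prod.snd : M₂ × M₂ → M₂)) := by
  set Λ₂ := Λ.comap (pull (GaloisRep.ratLocalizedAt ℓ) (AlgebraicClosure ℚ) q) with hΛ₂
  have hact : ∀ σ, Function.Surjective (act σ) := fun σ => (hΛ.act_bijective σ).2
  have hact₂ : ∀ σ, Function.Surjective (act₂ σ) := hΛ.quot_act_surjective q hq heq
  obtain ⟨n, b, hbΛ, hbli, hbspan⟩ := exists_basis_of_fg_equivariant act hact
    (Subalgebra.toSubmodule Λ) hΛ.fg hΛ.equivariant
  obtain ⟨n₂, u, huΛ, huli, huspan⟩ := exists_basis_of_fg_equivariant act₂ hact₂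
    (Subalgebra.toSubmodule Λ₂) (hΛ.quot_fg q hq) (hΛ.quot_equivariant q hq heq)
  -- Step 1: expand `f (m + n)`, `f = g ∘ q`, along the basis `b` in the first variable
  have hf : (fun m => g (q m)) ∈ Λ := hg
  obtain ⟨c, hc, hexp⟩ := hΛ.exists_translate_expansion b hbspan hf
  -- Step 2: the `c i` are invariant under the kernel
  have hcinv : ∀ i, ∀ m k : M, q k = 0 → c i (m + k) = c i m := by
    intro i m k hk
    have h1 : ∑ j, (c j (m + k) - c j m) • b j = 0 := by
      funext x
      simp only [Finset.sum_apply, Pi.smul_apply, smul_eq_mul, Pi.zero_apply, sub_mul,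
        Finset.sum_sub_distrib]
      have e1 := hexp x (m + k)
      have e2 := hexp x m
      have e3 : g (q (x + (m + k))) = g (q (x + m)) := by
        simp only [map_add, hk, add_zero]
      rw [e1, e2] at e3
      rw [sub_eq_zero]
      calc ∑ j, c j (m + k) * b j x = ∑ j, b j x * c j (m + k) :=
            Finset.sum_congr rfl (fun j _ => mul_comm _ _)
        _ = ∑ j, b j x * c j m := e3
        _ = ∑ j, c j m * b j x := Finset.sum_congr rfl (fun j _ => mul_comm _ _)
    have := linearIndependent_iff'.mp hbli Finset.univ _ h1 i (Finset.mem_univ i)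
    exact sub_eq_zero.mp this
  have hcbar : ∀ i, ∃ cb : M₂ → AlgebraicClosure ℚ, ∀ m, cb (q m) = c i m :=
    fun i => exists_factor_of_ker_invariant q hq (c i) (hcinv i)
  choose cb hcb using hcbar
  have hcbΛ : ∀ i, cb i ∈ Λ₂ := by
    intro i
    show (fun m => cb i (q m)) ∈ Λ
    have : (fun m => cb i (q m)) = c i := funext (hcb i)
    rw [this]
    exact hc i
  -- Step 3: the mixed function on `M × M₂`, expanded along `u` in the second variable
  have hmixed : (fun p : M × M₂ => ∑ i, b i p.1 * cb i p.2) ∈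
      Λ.map (pull (GaloisRep.ratLocalizedAt ℓ) (AlgebraicClosure ℚ) (Prod.fst : M × M₂ → M)) ⊔
      Λ₂.map (pull (GaloisRep.ratLocalizedAt ℓ) (AlgebraicClosure ℚ)
        (Prod.snd : M × M₂ → M₂)) :=
    sum_mul_mem_box b cb hbΛ hcbΛ
  obtain ⟨d, hd, hexp₂⟩ := box_expand' u huspan hmixed
  have hmix_eq : ∀ m m' : M, ∑ i, d i m * u i (q m') = g (q m + q m') := by
    intro m m'
    rw [← hexp₂ m (q m')]
    simp only [hcb]
    rw [← hexp m m', map_add]
  -- Step 4: the `d i` are invariant under the kernel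
  have hdinv : ∀ i, ∀ m k : M, q k = 0 → d i (m + k) = d i m := by
    intro i m k hk
    have h1 : ∑ j, (d j (m + k) - d j m) • u j = 0 := by
      funext y
      obtain ⟨m', rfl⟩ := hq y
      simp only [Finset.sum_apply, Pi.smul_apply, smul_eq_mul, Pi.zero_apply, sub_mul,
        Finset.sum_sub_distrib]
      rw [hmix_eq, hmix_eq, map_add, hk, add_zero, sub_self]
    have := linearIndependent_iff'.mp huli Finset.univ _ h1 i (Finset.mem_univ i)
    exact sub_eq_zero.mp this
  have hdbar : ∀ i, ∃ db : M₂ → AlgebraicClosure ℚ, ∀ m, db (q m) = d i m :=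
    fun i => exists_factor_of_ker_invariant q hq (d i) (hdinv i)
  choose db hdb using hdbar
  have hdbΛ : ∀ i, db i ∈ Λ₂ := by
    intro i
    show (fun m => db i (q m)) ∈ Λ
    have : (fun m => db i (q m)) = d i := funext (hdb i)
    rw [this]
    exact hd i
  -- Step 5: conclusion
  have hfinal : (fun p : M₂ × M₂ => g (p.1 + p.2)) =
      fun p : M₂ × M₂ => ∑ i, db i p.1 * u i p.2 := by
    funext p
    obtain ⟨m, hm⟩ := hq p.1
    obtain ⟨m', hm'⟩ := hq p.2
    rw [← hm, ← hm']
    simp only [hdb]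
    exact (hmix_eq m m').symm
  rw [hfinal]
  exact sum_mul_mem_box db u hdbΛ huΛ

/-- Separation of points on the quotient. -/
theorem IsHopfLattice.quot_separates (hΛ : IsHopfLattice ℓ act Λ)
    (hq : Function.Surjective q) (heq : ∀ σ m, q (act σ m) = act₂ σ (q m))
    (x y : M₂)
    (hxy : ∀ g ∈ Λ.comap (pull (GaloisRep.ratLocalizedAt ℓ) (AlgebraicClosure ℚ) q),
      g x = g y) : x = y := by
  classical
  have hfinM : Finite M := hΛ.finite
  let _ : Fintype M := Fintype.ofFinite M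
  obtain ⟨m₁, rfl⟩ := hq x
  obtain ⟨m₂, rfl⟩ := hq y
  have hact₂0 : ∀ σ, act₂ σ 0 = 0 := by
    intro σ
    have := heq σ 0
    rw [hΛ.act_zero, map_zero] at this
    exact this.symm
  set K : Finset M := Finset.univ.filter (fun k => q k = 0) with hKdef
  have hKmem : ∀ k, k ∈ K ↔ q k = 0 := fun k => by simp [hKdef]
  have hK : ∀ σ, ∀ k, k ∈ K ↔ act σ k ∈ K := by
    intro σ k
    rw [hKmem, hKmem, heq]
    constructor
    · intro h
      rw [h, hact₂0]
    · intro h
      have h2 := congrArg (act₂ σ⁻¹) h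
      rw [← heq, ← heq, ← hΛ.act_mul, inv_mul_cancel, hΛ.act_one, hact₂0] at h2
      exact h2
  -- traces agree
  have htr : ∀ h ∈ Λ, ∑ k ∈ K, h (m₁ + k) = ∑ k ∈ K, h (m₂ + k) := by
    intro h hh
    have hT := hΛ.trace_mem K hK hh
    have hinv : ∀ m k : M, q k = 0 →
        (fun m => ∑ k ∈ K, h (m + k)) (m + k) = (fun m => ∑ k ∈ K, h (m + k)) m := by
      intro m k hk
      show ∑ k' ∈ K, h (m + k + k') = ∑ k' ∈ K, h (m + k')
      refine Finset.sum_nbij' (fun k' => k + k') (fun k' => -k + k') ?_ ?_ ?_ ?_ ?_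
      · intro k' hk'
        rw [hKmem] at hk' ⊢
        rw [map_add, hk, hk', add_zero]
      · intro k' hk'
        rw [hKmem] at hk' ⊢
        rw [map_add, map_neg, hk, hk', neg_zero, add_zero]
      · intro k' _
        simp
      · intro k' _
        simp
      · intro k' _
        rw [add_assoc]
    obtain ⟨T, hT'⟩ := exists_factor_of_ker_invariant q hq
      (fun m => ∑ k ∈ K, h (m + k)) hinv
    have hTΛ : T ∈ Λ.comap (pull (GaloisRep.ratLocalizedAt ℓ) (AlgebraicClosure ℚ) q) := by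
      show (fun m => T (q m)) ∈ Λ
      have : (fun m => T (q m)) = fun m => ∑ k ∈ K, h (m + k) := funext hT'
      rw [this]
      exact hT
    have := hxy T hTΛ
    rw [hT', hT'] at this
    exact this
  -- Dedekind independence of the evaluation characters of `Λ`
  let ev : M → (Λ →* AlgebraicClosure ℚ) := fun m =>
    ((Pi.evalRingHom (fun _ : M => AlgebraicClosure ℚ) m).comp
      (Λ.val : Λ →+* (M → AlgebraicClosure ℚ)) : Λ →+* AlgebraicClosure ℚ).toMonoidHom
  have hev : ∀ m (h : Λ), ev m h = (h : M → AlgebraicClosure ℚ) m := fun _ _ => rfl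
  have hevinj : Function.Injective ev := by
    intro a a' haa
    apply hΛ.separates
    intro h hh
    have := congrArg (fun φ : Λ →* AlgebraicClosure ℚ => φ ⟨h, hh⟩) haa
    exact this
  have hli : LinearIndependent (AlgebraicClosure ℚ)
      (fun m : M => (ev m : Λ → AlgebraicClosure ℚ)) :=
    (linearIndependent_monoidHom Λ (AlgebraicClosure ℚ)).comp ev hevinj
  let coef : M → AlgebraicClosure ℚ := fun m =>
    (if m - m₁ ∈ K then 1 else 0) - (if m - m₂ ∈ K then 1 else 0)
  have hsum : ∑ m, coef m • (ev m : Λ → AlgebraicClosure ℚ) = 0 := by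
    funext h
    simp only [Finset.sum_apply, Pi.smul_apply, smul_eq_mul, Pi.zero_apply, coef, sub_mul,
      Finset.sum_sub_distrib, ite_mul, one_mul, zero_mul, hev]
    rw [sub_eq_zero]
    have key : ∀ m₀ : M, ∑ m, (if m - m₀ ∈ K then (h : M → AlgebraicClosure ℚ) m else 0) =
        ∑ k ∈ K, (h : M → AlgebraicClosure ℚ) (m₀ + k) := by
      intro m₀
      rw [← Finset.sum_filter]
      refine Finset.sum_nbij' (fun m => m - m₀) (fun k => m₀ + k) ?_ ?_ ?_ ?_ ?_
      · intro m hm
        exact (Finset.mem_filter.mp hm).2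
      · intro k hk
        simp only [Finset.mem_filter, Finset.mem_univ, true_and, add_sub_cancel_left]
        exact hk
      · intro m _
        simp
      · intro k _
        simp
      · intro m _
        simp
    rw [key m₁, key m₂]
    exact htr h h.2
  have hcoef := linearIndependent_iff'.mp hli Finset.univ coef hsum m₁ (Finset.mem_univ m₁)
  have h0K : (0 : M) ∈ K := (hKmem 0).mpr (map_zero q)
  simp only [coef, sub_self, h0K, if_true] at hcoef
  by_cases hmem : m₁ - m₂ ∈ K
  · have := (hKmem _).mp hmem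
    rw [map_sub, sub_eq_zero] at this
    exact this
  · rw [if_neg hmem, sub_zero] at hcoef
    exact absurd hcoef one_ne_zero

/-- **Quotients of Hopf lattices.** -/
theorem IsHopfLattice.quot (hΛ : IsHopfLattice ℓ act Λ)
    (hq : Function.Surjective q) (heq : ∀ σ m, q (act σ m) = act₂ σ (q m)) :
    IsHopfLattice ℓ act₂
      (Λ.comap (pull (GaloisRep.ratLocalizedAt ℓ) (AlgebraicClosure ℚ) q)) := by
  refine ⟨hΛ.quot_fg q hq, hΛ.quot_equivariant q hq heq, hΛ.quot_separates q hq heq, ?_⟩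
  rintro _ ⟨g, hg, rfl⟩
  exact hΛ.quot_comul q hq heq hg

theorem HasHopfLattice.of_surjective (h : HasHopfLattice ℓ M act)
    (hq : Function.Surjective q) (heq : ∀ σ m, q (act σ m) = act₂ σ (q m)) :
    HasHopfLattice ℓ M₂ act₂ := by
  obtain ⟨Λ, hΛ⟩ := h
  exact ⟨_, hΛ.quot q hq heq⟩

end Quot

end Fermat.Agent.S19.H135
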