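/-
Cell A3 / WP-C (helper135): closure properties of Hopf models (the S19 / `IsFlatAt`
existential) under equivariant sub-objects, quotients, products, finite powers and
sub-quotients, and the glue to `GaloisRepAdic.IsFlatAt` (piece C4).

Everything is relative to the ORD block `Fermat.Agent.S19.OrdStatement` of the frozen A3
interface (order datum on a finite module gives a Hopf model), taken as a hypothesis.
-/
import Fermat.Agent.S19.Defs
import Fermat.Agent.S19.H135.OfFlatModel
import Fermat.Agent.S19.H135.Power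
import Fermat.Agent.S19.H135.Quotient

set_option autoImplicit false

namespace Fermat.Agent.S19.H135

open Fermat.Agent.S19

section Adapter

variable {ℓ : ℕ} {M : Type} [AddCommGroup M] {act : GalQ → M → M}

/-- `FlatModel` is the frozen `HopfModel`. -/
theorem flatModel_iff_hopfModel : FlatModel ℓ M act ↔ HopfModel ℓ M act := Iff.rfl

/-- A Hopf lattice is an order datum of the frozen A3 interface. -/
def IsHopfLattice.toOrderDatum {Λ : Subalgebra (GaloisRep.ratLocalizedAt ℓ) (M → Qb)}
    (hΛ : IsHopfLattice ℓ act Λ) : OrderDatum ℓ M act where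
  act_add := hΛ.act_add
  gens := (Λ : Set (M → Qb))
  equivariant := fun f hf => hΛ.equivariant f hf
  integral := fun _ hf m => hΛ.isIntegral_apply hf m
  separates := hΛ.separates
  add_mem := fun f hf => by
    refine box_induction (C := fun F => F ∈ Algebra.adjoin (Zb ℓ)
      (coordFunctions (Λ : Set (M → Qb)))) (hΛ.comul_mem hf) ?_ ?_
    · intro a ha b hb
      have h1 : (fun p : M × M => a p.1) ∈ Algebra.adjoin (Zb ℓ)
          (coordFunctions (Λ : Set (M → Qb))) :=
        Algebra.subset_adjoin (Or.inl ⟨a, ha, rfl⟩)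
      have h2 : (fun p : M × M => b p.2) ∈ Algebra.adjoin (Zb ℓ)
          (coordFunctions (Λ : Set (M → Qb))) :=
        Algebra.subset_adjoin (Or.inr ⟨b, hb, rfl⟩)
      exact Subalgebra.mul_mem _ h1 h2
    · intro F₁ F₂ h₁ h₂
      exact Subalgebra.add_mem _ h₁ h₂

/-- A Hopf lattice gives a Hopf model (given the ORD block). -/
theorem HasHopfLattice.hopfModel (hord : OrdStatement) [Fact ℓ.Prime]
    (h : HasHopfLattice ℓ M act) : HopfModel ℓ M act := by
  obtain ⟨Λ, hΛ⟩ := h
  have : Finite M := hΛ.finite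
  exact hord ℓ M act ⟨hΛ.toOrderDatum⟩

/-- The ORD block implies the hypothesis `Layer0` of this library. -/
theorem layer0_of_ordStatement (hord : OrdStatement) [Fact ℓ.Prime] : Layer0 ℓ :=
  fun _ _ _ h => h.hopfModel hord

theorem HopfModel.hasHopfLattice_h135 (h : HopfModel ℓ M act) : HasHopfLattice ℓ M act :=
  FlatModel.hasHopfLattice h

/-- A module carrying a Hopf model is finite. -/
theorem HopfModel.finite_h135 (h : HopfModel ℓ M act) : Finite M := by
  obtain ⟨Λ, hΛ⟩ := HopfModel.hasHopfLattice_h135 h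
  exact hΛ.finite

/-- The Galois action of a module carrying a Hopf model is additive. -/
theorem HopfModel.act_add_h135 (h : HopfModel ℓ M act) (σ : GalQ) (m n : M) :
    act σ (m + n) = act σ m + act σ n := by
  obtain ⟨Λ, hΛ⟩ := HopfModel.hasHopfLattice_h135 h
  exact hΛ.act_add σ m n

/-- The Galois action of a module carrying a Hopf model is an action. -/
theorem HopfModel.act_mul_h135 (h : HopfModel ℓ M act) (σ τ : GalQ) (m : M) :
    act (σ * τ) m = act σ (act τ m) := by
  obtain ⟨Λ, hΛ⟩ := HopfModel.hasHopfLattice_h135 h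
  exact hΛ.act_mul σ τ m

theorem HopfModel.act_one_h135 (h : HopfModel ℓ M act) (m : M) : act 1 m = m := by
  obtain ⟨Λ, hΛ⟩ := HopfModel.hasHopfLattice_h135 h
  exact hΛ.act_one m

end Adapter

section Closure

variable (hord : OrdStatement) {ℓ : ℕ} [Fact ℓ.Prime]
variable {M M₁ M₂ : Type} [AddCommGroup M] [AddCommGroup M₁] [AddCommGroup M₂]
  {act : GalQ → M → M} {act₁ : GalQ → M₁ → M₁} {act₂ : GalQ → M₂ → M₂}

include hord

/-- **Sub-objects**: Hopf models restrict along equivariant additive injections. -/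
theorem hopfModel_of_injective (h : HopfModel ℓ M act) (i : M₁ →+ M)
    (hi : Function.Injective i) (heq : ∀ σ m, i (act₁ σ m) = act σ (i m)) :
    HopfModel ℓ M₁ act₁ :=
  ((HopfModel.hasHopfLattice_h135 h).of_injective i hi heq).hopfModel hord

/-- **Transport** along equivariant additive isomorphisms. -/
theorem hopfModel_of_addEquiv (h : HopfModel ℓ M act) (e : M ≃+ M₁)
    (heq : ∀ σ m, e (act σ m) = act₁ σ (e m)) : HopfModel ℓ M₁ act₁ :=
  ((HopfModel.hasHopfLattice_h135 h).of_addEquiv e heq).hopfModel hord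

/-- **Quotients**: Hopf models descend along equivariant additive surjections. -/
theorem hopfModel_of_surjective (h : HopfModel ℓ M act) (q : M →+ M₂)
    (hq : Function.Surjective q) (heq : ∀ σ m, q (act σ m) = act₂ σ (q m)) :
    HopfModel ℓ M₂ act₂ :=
  ((HopfModel.hasHopfLattice_h135 h).of_surjective q hq heq).hopfModel hord

/-- **Sub-quotients**. -/
theorem hopfModel_of_subquotient (h : HopfModel ℓ M act) (i : M₁ →+ M)
    (hi : Function.Injective i) (hieq : ∀ σ m, i (act₁ σ m) = act σ (i m))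
    (q : M₁ →+ M₂) (hq : Function.Surjective q) (hqeq : ∀ σ m, q (act₁ σ m) = act₂ σ (q m)) :
    HopfModel ℓ M₂ act₂ :=
  (((HopfModel.hasHopfLattice_h135 h).of_injective i hi hieq).of_surjective q hq hqeq).hopfModel
    hord

/-- **Binary products**. -/
theorem hopfModel_prod (h₁ : HopfModel ℓ M₁ act₁) (h₂ : HopfModel ℓ M₂ act₂) :
    HopfModel ℓ (M₁ × M₂) (fun σ m => (act₁ σ m.1, act₂ σ m.2)) :=
  ((HopfModel.hasHopfLattice_h135 h₁).prod (HopfModel.hasHopfLattice_h135 h₂)).hopfModel hord

/-- **Finite powers**. -/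
theorem hopfModel_power (h : HopfModel ℓ M act) (ι : Type) [Finite ι] :
    HopfModel ℓ (ι → M) (fun σ v i => act σ (v i)) :=
  ((HopfModel.hasHopfLattice_h135 h).power ι).hopfModel hord

/-- Stable subgroups. -/
theorem hopfModel_addSubgroup (h : HopfModel ℓ M act) (M' : AddSubgroup M)
    (hM' : ∀ σ, ∀ m ∈ M', act σ m ∈ M') :
    HopfModel ℓ M' (fun σ m => ⟨act σ m.1, hM' σ m.1 m.2⟩) :=
  ((HopfModel.hasHopfLattice_h135 h).addSubgroup M' hM').hopfModel hord

end Closure

section C4

variable (hord : OrdStatement) {p : ℕ} [Fact p.Prime]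
variable {A : Type} [CommRing A] [IsLocalRing A]

include hord

/-- **Piece C4.**  A Galois representation all of whose finite quotients `V / I V` are
equivariant sub-quotients of modules carrying Hopf models is flat at `p`. -/
theorem isFlatAt_of_subquotient (ρ : GaloisRepAdic A)
    (hres : Finite (IsLocalRing.ResidueField A))
    (h : ∀ I : Ideal A, Finite (A ⧸ I) →
      ∃ (M : Type) (_ : AddCommGroup M) (act : GalQ → M → M)
        (M₁ : Type) (_ : AddCommGroup M₁) (act₁ : GalQ → M₁ → M₁)
        (i : M₁ →+ M) (q : M₁ →+ ρ.V ⧸ (I • (⊤ : Submodule A ρ.V))),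
        HopfModel p M act ∧ Function.Injective i ∧ (∀ σ m, i (act₁ σ m) = act σ (i m)) ∧
        Function.Surjective q ∧ ∀ σ m, q (act₁ σ m) = ρ.levelAction I σ (q m)) :
    ρ.IsFlatAt p := by
  refine ⟨hres, fun I hI => ?_⟩
  obtain ⟨M, _, act, M₁, _, act₁, i, q, hM, hi, hieq, hq, hqeq⟩ := h I hI
  exact hopfModel_of_subquotient hord hM i hi hieq q hq hqeq

/-- Variant of C4 with the Hopf models provided by the frozen S19 for the torsion of `J₀(N)`:
it suffices to present every `V / I V` as a sub-quotient of a finite power of some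
`J₀(N)[p^k]`. -/
theorem isFlatAt_of_subquotient_tors (N : ℕ)
    (hS19 : ∀ k : ℕ, HopfModel p (Tors N p k) (torsAct N p k))
    (ρ : GaloisRepAdic A) (hres : Finite (IsLocalRing.ResidueField A))
    (h : ∀ I : Ideal A, Finite (A ⧸ I) →
      ∃ (k r : ℕ) (M₁ : Type) (_ : AddCommGroup M₁) (act₁ : GalQ → M₁ → M₁)
        (i : M₁ →+ (Fin r → Tors N p k)) (q : M₁ →+ ρ.V ⧸ (I • (⊤ : Submodule A ρ.V))),
        Function.Injective i ∧ (∀ σ m, i (act₁ σ m) = fun j => torsAct N p k σ (i m j)) ∧
        Function.Surjective q ∧ ∀ σ m, q (act₁ σ m) = ρ.levelAction I σ (q m)) :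
    ρ.IsFlatAt p := by
  refine isFlatAt_of_subquotient hord ρ hres (fun I hI => ?_)
  obtain ⟨k, r, M₁, _, act₁, i, q, hi, hieq, hq, hqeq⟩ := h I hI
  exact ⟨Fin r → Tors N p k, inferInstance, fun σ v j => torsAct N p k σ (v j), M₁, _, act₁, i, q,
    hopfModel_power hord (hS19 k) (Fin r), hi, hieq, hq, hqeq⟩

end C4

section Frozen

/-- The frozen S19 conclusion gives a Hopf model for the torsion module (converse of
`Fermat.Agent.S19.frozen_of_hopfModel`). -/
theorem hopfModel_of_frozenShape (N ℓ k : ℕ)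
    (h : ∃ (H : Type) (_ : CommRing H) (_ : HopfAlgebra (GaloisRep.ratLocalizedAt ℓ) H),
      Module.Finite (GaloisRep.ratLocalizedAt ℓ) H ∧ Module.Flat (GaloisRep.ratLocalizedAt ℓ) H ∧
      Coalgebra.IsCocomm (GaloisRep.ratLocalizedAt ℓ) H ∧
      ∃ e : WithConv (H →ₐ[GaloisRep.ratLocalizedAt ℓ] AlgebraicClosure ℚ) ≃
          ↥(Submodule.torsionBy ℤ (ModularCurve.JZero N) ((ℓ : ℤ) ^ k)),
        (∀ f g, e (f * g) = e f + e g) ∧
        ∀ (σ : AlgebraicClosure ℚ ≃ₐ[ℚ] AlgebraicClosure ℚ)
          (f g : WithConv (H →ₐ[GaloisRep.ratLocalizedAt ℓ] AlgebraicClosure ℚ)),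
          (∀ h : H, g h = σ (f h)) →
            ((e g : ModularCurve.JZero N)) = σ • (e f : ModularCurve.JZero N)) :
    HopfModel ℓ (Tors N ℓ k) (torsAct N ℓ k) := by
  obtain ⟨H, i1, i2, hfin, hflat, hco, e, hmul, hgal⟩ := h
  refine ⟨H, i1, i2, hfin, hflat, hco, e, hmul, ?_⟩
  intro σ f g hfg
  exact Subtype.ext (hgal σ f g hfg)

end Frozen

end Fermat.Agent.S19.H135
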