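/-
Cell A3 / WP-C (helper135): Hopf lattices restrict along equivariant injections (sub-objects,
transport along isomorphisms) and are stable under binary products.
-/
import Fermat.Agent.S19.H135.Basic

set_option autoImplicit false

namespace Fermat.Agent.S19.H135

section Sub

variable {ℓ : ℕ} {M M₁ : Type} [AddCommGroup M] [AddCommGroup M₁]
  {act : (AlgebraicClosure ℚ ≃ₐ[ℚ] AlgebraicClosure ℚ) → M → M}
  {act₁ : (AlgebraicClosure ℚ ≃ₐ[ℚ] AlgebraicClosure ℚ) → M₁ → M₁}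

/-- Restriction of a Hopf lattice along an equivariant additive injection. -/
theorem IsHopfLattice.restrict {Λ : Subalgebra (GaloisRep.ratLocalizedAt ℓ) (M → AlgebraicClosure ℚ)}
    (hΛ : IsHopfLattice ℓ act Λ) (i : M₁ →+ M) (hi : Function.Injective i)
    (heq : ∀ σ m, i (act₁ σ m) = act σ (i m)) :
    IsHopfLattice ℓ act₁ (Λ.map (pull (GaloisRep.ratLocalizedAt ℓ) (AlgebraicClosure ℚ) i)) := by
  refine ⟨?_, ?_, ?_, ?_⟩
  · rw [Subalgebra.map_toSubmodule]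
    exact hΛ.fg.map _
  · rintro _ ⟨a, ha, rfl⟩ σ m
    simp only [AlgHom.coe_toRingHom, pull_apply, heq]
    exact hΛ.equivariant a ha σ (i m)
  · intro m n hmn
    apply hi
    apply hΛ.separates
    intro a ha
    exact hmn _ ⟨a, ha, rfl⟩
  · rintro _ ⟨_, ⟨a, ha, rfl⟩, rfl⟩
    have h1 := hΛ.comul_mem ha
    have h2 : pull (GaloisRep.ratLocalizedAt ℓ) (AlgebraicClosure ℚ)
        (fun p : M₁ × M₁ => p.1 + p.2)
        (pull (GaloisRep.ratLocalizedAt ℓ) (AlgebraicClosure ℚ) i a) =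
        fun p : M₁ × M₁ => (fun q : M × M => a (q.1 + q.2)) (i p.1, i p.2) := by
      funext p
      simp only [pull_apply, map_add]
    show pull (GaloisRep.ratLocalizedAt ℓ) (AlgebraicClosure ℚ)
        (fun p : M₁ × M₁ => p.1 + p.2)
        (pull (GaloisRep.ratLocalizedAt ℓ) (AlgebraicClosure ℚ) i a) ∈ _
    rw [h2]
    refine box_induction (C := fun F => (fun p : M₁ × M₁ => F (i p.1, i p.2)) ∈
      Subalgebra.map (pull (GaloisRep.ratLocalizedAt ℓ) (AlgebraicClosure ℚ)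
        (Prod.fst : M₁ × M₁ → M₁))
        (Λ.map (pull (GaloisRep.ratLocalizedAt ℓ) (AlgebraicClosure ℚ) i)) ⊔
      Subalgebra.map (pull (GaloisRep.ratLocalizedAt ℓ) (AlgebraicClosure ℚ)
        (Prod.snd : M₁ × M₁ → M₁))
        (Λ.map (pull (GaloisRep.ratLocalizedAt ℓ) (AlgebraicClosure ℚ) i))) h1 ?_ ?_
    · intro a' ha' b' hb'
      exact mul_mem_box (Λ₁ := Λ.map (pull (GaloisRep.ratLocalizedAt ℓ) (AlgebraicClosure ℚ) i))
        (Λ₂ := Λ.map (pull (GaloisRep.ratLocalizedAt ℓ) (AlgebraicClosure ℚ) i))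
        ⟨a', ha', rfl⟩ ⟨b', hb', rfl⟩
    · intro F₁ F₂ h₁ h₂
      exact Subalgebra.add_mem _ h₁ h₂

theorem HasHopfLattice.of_injective (h : HasHopfLattice ℓ M act) (i : M₁ →+ M)
    (hi : Function.Injective i) (heq : ∀ σ m, i (act₁ σ m) = act σ (i m)) :
    HasHopfLattice ℓ M₁ act₁ := by
  obtain ⟨Λ, hΛ⟩ := h
  exact ⟨_, hΛ.restrict i hi heq⟩

/-- Transport along an equivariant additive isomorphism. -/
theorem HasHopfLattice.of_addEquiv (h : HasHopfLattice ℓ M act) (e : M ≃+ M₁)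
    (heq : ∀ σ m, e (act σ m) = act₁ σ (e m)) : HasHopfLattice ℓ M₁ act₁ := by
  refine h.of_injective e.symm.toAddMonoidHom e.symm.injective ?_
  intro σ m
  apply e.injective
  simp only [AddEquiv.toAddMonoidHom_eq_coe, AddMonoidHom.coe_coe, AddEquiv.apply_symm_apply, heq]

/-- Restriction to a stable subgroup. -/
theorem HasHopfLattice.addSubgroup (h : HasHopfLattice ℓ M act) (M' : AddSubgroup M)
    (hM' : ∀ σ, ∀ m ∈ M', act σ m ∈ M') :
    HasHopfLattice ℓ M' (fun σ m => ⟨act σ m.1, hM' σ m.1 m.2⟩) :=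
  h.of_injective M'.subtype Subtype.val_injective (fun _ _ => rfl)

end Sub

section Prod

variable {ℓ : ℕ} {M₁ M₂ : Type} [AddCommGroup M₁] [AddCommGroup M₂]
  {act₁ : (AlgebraicClosure ℚ ≃ₐ[ℚ] AlgebraicClosure ℚ) → M₁ → M₁}
  {act₂ : (AlgebraicClosure ℚ ≃ₐ[ℚ] AlgebraicClosure ℚ) → M₂ → M₂}

/-- The box product of two Hopf lattices is a Hopf lattice on the product. -/
theorem IsHopfLattice.prod
    {Λ₁ : Subalgebra (GaloisRep.ratLocalizedAt ℓ) (M₁ → AlgebraicClosure ℚ)}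
    {Λ₂ : Subalgebra (GaloisRep.ratLocalizedAt ℓ) (M₂ → AlgebraicClosure ℚ)}
    (h₁ : IsHopfLattice ℓ act₁ Λ₁) (h₂ : IsHopfLattice ℓ act₂ Λ₂) :
    IsHopfLattice ℓ (fun σ (m : M₁ × M₂) => (act₁ σ m.1, act₂ σ m.2))
      (Λ₁.map (pull (GaloisRep.ratLocalizedAt ℓ) (AlgebraicClosure ℚ)
          (Prod.fst : M₁ × M₂ → M₁)) ⊔
        Λ₂.map (pull (GaloisRep.ratLocalizedAt ℓ) (AlgebraicClosure ℚ)
          (Prod.snd : M₁ × M₂ → M₂))) := by
  refine ⟨?_, ?_, ?_, ?_⟩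
  · rw [← Subalgebra.mul_toSubmodule, Subalgebra.map_toSubmodule, Subalgebra.map_toSubmodule]
    exact (h₁.fg.map _).mul (h₂.fg.map _)
  · intro F hF σ m
    refine box_induction (C := fun F => F (act₁ σ m.1, act₂ σ m.2) = σ (F m)) hF ?_ ?_
    · intro a ha b hb
      simp only [h₁.equivariant a ha, h₂.equivariant b hb, map_mul]
    · intro F₁ F₂ e₁ e₂
      simp only [Pi.add_apply, e₁, e₂, map_add]
  · intro m n hmn
    refine Prod.ext ?_ ?_
    · apply h₁.separates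
      intro a ha
      exact hmn _ ((le_sup_left : Λ₁.map (pull (GaloisRep.ratLocalizedAt ℓ) (AlgebraicClosure ℚ)
          (Prod.fst : M₁ × M₂ → M₁)) ≤ _) ⟨a, ha, rfl⟩)
    · apply h₂.separates
      intro b hb
      exact hmn _ ((le_sup_right : Λ₂.map (pull (GaloisRep.ratLocalizedAt ℓ) (AlgebraicClosure ℚ)
          (Prod.snd : M₁ × M₂ → M₂)) ≤ _) ⟨b, hb, rfl⟩)
  · set Λ := Λ₁.map (pull (GaloisRep.ratLocalizedAt ℓ) (AlgebraicClosure ℚ)
          (Prod.fst : M₁ × M₂ → M₁)) ⊔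
        Λ₂.map (pull (GaloisRep.ratLocalizedAt ℓ) (AlgebraicClosure ℚ)
          (Prod.snd : M₁ × M₂ → M₂)) with hΛdef
    set B := Λ.map (pull (GaloisRep.ratLocalizedAt ℓ) (AlgebraicClosure ℚ)
          (Prod.fst : (M₁ × M₂) × (M₁ × M₂) → M₁ × M₂)) ⊔
        Λ.map (pull (GaloisRep.ratLocalizedAt ℓ) (AlgebraicClosure ℚ)
          (Prod.snd : (M₁ × M₂) × (M₁ × M₂) → M₁ × M₂)) with hBdef
    rw [Subalgebra.map_le, hΛdef]
    refine sup_le ?_ ?_
    · rw [Subalgebra.map_le]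
      intro a ha
      show (fun p : (M₁ × M₂) × (M₁ × M₂) => a ((p.1 + p.2).1)) ∈ B
      have h := h₁.comul_mem ha
      refine box_induction (C := fun F =>
        (fun p : (M₁ × M₂) × (M₁ × M₂) => F (p.1.1, p.2.1)) ∈ B) h ?_ ?_
      · intro a' ha' a'' ha''
        exact mul_mem_box (Λ₁ := Λ) (Λ₂ := Λ)
          (a := fun m : M₁ × M₂ => a' m.1) (b := fun m : M₁ × M₂ => a'' m.1)
          ((le_sup_left : Λ₁.map (pull (GaloisRep.ratLocalizedAt ℓ) (AlgebraicClosure ℚ)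
            (Prod.fst : M₁ × M₂ → M₁)) ≤ _) ⟨a', ha', rfl⟩)
          ((le_sup_left : Λ₁.map (pull (GaloisRep.ratLocalizedAt ℓ) (AlgebraicClosure ℚ)
            (Prod.fst : M₁ × M₂ → M₁)) ≤ _) ⟨a'', ha'', rfl⟩)
      · intro F₁ F₂ e₁ e₂
        exact Subalgebra.add_mem _ e₁ e₂
    · rw [Subalgebra.map_le]
      intro b hb
      show (fun p : (M₁ × M₂) × (M₁ × M₂) => b ((p.1 + p.2).2)) ∈ B
      have h := h₂.comul_mem hb
      refine box_induction (C := fun F =>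
        (fun p : (M₁ × M₂) × (M₁ × M₂) => F (p.1.2, p.2.2)) ∈ B) h ?_ ?_
      · intro b' hb' b'' hb''
        exact mul_mem_box (Λ₁ := Λ) (Λ₂ := Λ)
          (a := fun m : M₁ × M₂ => b' m.2) (b := fun m : M₁ × M₂ => b'' m.2)
          ((le_sup_right : Λ₂.map (pull (GaloisRep.ratLocalizedAt ℓ) (AlgebraicClosure ℚ)
            (Prod.snd : M₁ × M₂ → M₂)) ≤ _) ⟨b', hb', rfl⟩)
          ((le_sup_right : Λ₂.map (pull (GaloisRep.ratLocalizedAt ℓ) (AlgebraicClosure ℚ)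
            (Prod.snd : M₁ × M₂ → M₂)) ≤ _) ⟨b'', hb'', rfl⟩)
      · intro F₁ F₂ e₁ e₂
        exact Subalgebra.add_mem _ e₁ e₂

theorem HasHopfLattice.prod (h₁ : HasHopfLattice ℓ M₁ act₁) (h₂ : HasHopfLattice ℓ M₂ act₂) :
    HasHopfLattice ℓ (M₁ × M₂) (fun σ m => (act₁ σ m.1, act₂ σ m.2)) := by
  obtain ⟨Λ₁, hΛ₁⟩ := h₁
  obtain ⟨Λ₂, hΛ₂⟩ := h₂
  exact ⟨_, hΛ₁.prod hΛ₂⟩

end Prod

end Fermat.Agent.S19.H135
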