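/-
Cell A3 / WP-C (helper135): Hopf lattices on trivial groups and on finite powers / finite
products of copies of one module.
-/
import Fermat.Agent.S19.H135.SubProd

set_option autoImplicit false

namespace Fermat.Agent.S19.H135

section Trivial

variable {ℓ : ℕ} {M : Type} [AddCommGroup M]
  {act : (AlgebraicClosure ℚ ≃ₐ[ℚ] AlgebraicClosure ℚ) → M → M}

/-- On a trivial group the scalars form a Hopf lattice. -/
theorem isHopfLattice_bot [Subsingleton M] :
    IsHopfLattice ℓ act (⊥ : Subalgebra (GaloisRep.ratLocalizedAt ℓ) (M → AlgebraicClosure ℚ)) := by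
  refine ⟨?_, ?_, ?_, ?_⟩
  · exact Subalgebra.fg_bot_toSubmodule
  · intro f hf σ m
    obtain ⟨r, rfl⟩ := Algebra.mem_bot.mp hf
    show algebraMap ℚ (AlgebraicClosure ℚ) (r : ℚ) = σ (algebraMap ℚ (AlgebraicClosure ℚ) (r : ℚ))
    exact (σ.commutes (r : ℚ)).symm
  · intro m n _
    exact Subsingleton.elim m n
  · rintro _ ⟨f, hf, rfl⟩
    obtain ⟨r, rfl⟩ := Algebra.mem_bot.mp hf
    rw [AlgHom.coe_toRingHom, AlgHom.commutes]
    exact Subalgebra.algebraMap_mem _ r

theorem hasHopfLattice_of_subsingleton [Subsingleton M] : HasHopfLattice ℓ M act :=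
  ⟨⊥, isHopfLattice_bot⟩

end Trivial

section Power

variable {ℓ : ℕ} {M : Type} [AddCommGroup M]
  {act : (AlgebraicClosure ℚ ≃ₐ[ℚ] AlgebraicClosure ℚ) → M → M}

/-- Finite powers, indexed by `Fin r`. -/
theorem HasHopfLattice.finPower (h : HasHopfLattice ℓ M act) (r : ℕ) :
    HasHopfLattice ℓ (Fin r → M) (fun σ v i => act σ (v i)) := by
  induction r with
  | zero => exact hasHopfLattice_of_subsingleton
  | succ r ih =>
    have hprod := h.prod ih
    let i : (Fin (r + 1) → M) →+ M × (Fin r → M) :=
      { toFun := fun v => (v 0, fun j => v j.succ)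
        map_zero' := rfl
        map_add' := fun _ _ => rfl }
    refine hprod.of_injective i ?_ (fun _ _ => rfl)
    intro v w hvw
    have h0 : v 0 = w 0 := congrArg Prod.fst hvw
    have hs : (fun j : Fin r => v j.succ) = fun j => w j.succ := congrArg Prod.snd hvw
    funext j
    refine Fin.cases h0 (fun j => congrFun hs j) j

/-- Finite powers, indexed by an arbitrary finite type. -/
theorem HasHopfLattice.power (h : HasHopfLattice ℓ M act) (ι : Type) [Finite ι] :
    HasHopfLattice ℓ (ι → M) (fun σ v i => act σ (v i)) := by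
  obtain ⟨r, ⟨e⟩⟩ := Finite.exists_equiv_fin ι
  let i : (ι → M) →+ (Fin r → M) :=
    { toFun := fun v j => v (e.symm j)
      map_zero' := rfl
      map_add' := fun _ _ => rfl }
  refine (h.finPower r).of_injective i ?_ (fun _ _ => rfl)
  intro v w hvw
  funext x
  have := congrFun hvw (e x)
  simpa [i] using this

end Power

end Fermat.Agent.S19.H135
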